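import Fermat.Agent.S31.TraceDet

/-!
# S32 / (P4b): `trace_determines` modulo an ideal
-/

set_option autoImplicit false

namespace Fermat.Agent.S32

open Matrix Fermat.Agent.S31

/-- **(P4b)**: `trace_determines` modulo an ideal. -/
theorem trace_determines_mod {T : Type*} [CommRing T] [IsLocalRing T] {K : Type*} [Field K]
    [IsAlgClosed K] (φ : T →+* K) [IsLocalHom φ] {G : Type*} [Monoid G]
    (M : G →* Matrix (Fin 2) (Fin 2) T)
    (hirr : ∀ W : Submodule K (Fin 2 → K),
      (∀ g, ∀ v ∈ W, ((M g).map φ).mulVec v ∈ W) → W = ⊥ ∨ W = ⊤)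
    (J : Ideal T) (X : Matrix (Fin 2) (Fin 2) T) (hX : ∀ g, (X * M g).trace ∈ J) :
    ∀ i j, X i j ∈ J := by
  classical
  let Mb : G →* Matrix (Fin 2) (Fin 2) K := (φ.mapMatrix : Matrix (Fin 2) (Fin 2) T →+* Matrix (Fin 2) (Fin 2) K).toMonoidHom.comp M
  have hspan := span_entries_eq_top Mb hirr
  set s : Set (Fin 2 × Fin 2 → K) :=
    Set.range fun g : G => fun ab : Fin 2 × Fin 2 => Mb g ab.1 ab.2 with hs
  obtain ⟨f, hfs, -, hfli⟩ := Submodule.exists_fun_fin_finrank_span_eq K s
  have hcard : Module.finrank K (Submodule.span K s) = 4 := by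
    rw [hspan, finrank_top, Module.finrank_fintype_fun_eq_card]
    simp
  let e : (Fin 2 × Fin 2) ≃ Fin (Module.finrank K (Submodule.span K s)) :=
    Fintype.equivOfCardEq (by rw [hcard]; simp)
  choose γ hγ using hfs
  let Ω : Matrix (Fin 2 × Fin 2) (Fin 2 × Fin 2) T := fun i ab => M (γ (e i)) ab.1 ab.2
  have hΩ : (Ω.map φ).row = f ∘ e := by
    funext i
    have := hγ (e i)
    simp only [Function.comp]
    rw [← this]
    rfl
  have hunit : IsUnit (Ω.map φ) := by
    rw [← Matrix.linearIndependent_rows_iff_isUnit, hΩ]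
    exact hfli.comp _ e.injective
  have hdet : IsUnit Ω.det := by
    have h1 : IsUnit (Ω.map φ).det := (Matrix.isUnit_iff_isUnit_det _).mp hunit
    have h2 : (Ω.map φ).det = φ Ω.det := by
      rw [RingHom.map_det]; rfl
    rw [h2] at h1
    exact (isUnit_map_iff φ _).mp h1
  let x : Fin 2 × Fin 2 → T := fun ab => X ab.2 ab.1
  have hx : ∀ i, Ω.mulVec x i ∈ J := by
    intro i
    have h1 := hX (γ (e i))
    simp only [Matrix.trace, Matrix.diag, Matrix.mul_apply] at h1
    rw [Finset.sum_comm] at h1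
    simp only [Matrix.mulVec, dotProduct]
    rw [Fintype.sum_prod_type]
    convert h1 using 1
    refine Finset.sum_congr rfl fun a _ => Finset.sum_congr rfl fun b _ => ?_
    exact mul_comm _ _
  have hx0 : x = Ω⁻¹.mulVec (Ω.mulVec x) := by
    rw [Matrix.mulVec_mulVec, Matrix.nonsing_inv_mul Ω hdet, Matrix.one_mulVec]
  intro i j
  have h3 : X i j = x (j, i) := rfl
  rw [h3, hx0]
  simp only [Matrix.mulVec, dotProduct]
  exact Ideal.sum_mem _ fun c _ => Ideal.mul_mem_left _ _ (hx c)

end Fermat.Agent.S32
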