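import Fermat.Agent.S32.P4.Adj
import Fermat.Agent.S32.TraceMod

/-!
# S32 / (P4) : the abstract trace argument: the annihilator of `W n` in `ℤ[G_ℚ]` kills `ρ` modulo
`𝔪 ^ m`
-/

set_option autoImplicit false

namespace Fermat.Agent.S32

open IsLocalRing Fermat.Agent.S31

section

variable {T : Type} [CommRing T] [IsLocalRing T]
  (p : ℕ) (hp : p.Prime) (hpT : (p : T) ∈ maximalIdeal T) (S : Finset ℕ) (hpS : p ∈ S)
  (M : GQ →* Matrix (Fin 2) (Fin 2) T)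
  (hcont : ∀ n : ℕ, ∃ L : IntermediateField ℚ Qb, FiniteDimensional ℚ L ∧
    ∀ σ : GQ, (∀ x ∈ L, σ x = x) → ∀ i j, (M σ - 1) i j ∈ maximalIdeal T ^ n)
  {𝕋 : Type} [CommRing 𝕋] (π : 𝕋 →+* T) (t : ℕ → 𝕋)
  (hfrob : ∀ ℓ : ℕ, ℓ.Prime → ℓ ∉ S → ∀ A : ValuationSubring Qb, A.LiesOverPrime ℓ →
    ∀ σ : GQ, A.IsFrobeniusAt σ ℓ → (M σ).trace = π (t ℓ) ∧ (M σ).det = (ℓ : T))
  {H : Type} [AddCommGroup H] [Module.Free ℤ H] [Module.Finite ℤ H] (TH : ℕ → Module.End ℤ H)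
  (faithful : ∀ P : FreeAlgebra ℤ ℕ, FreeAlgebra.lift ℤ TH P = 0 → FreeAlgebra.lift ℤ t P = 0)
  {W : ℕ → Type} [∀ n, AddCommGroup (W n)]
  (tors : ∀ (n : ℕ) (w : W n), (p ^ n) • w = 0)
  (act : ∀ n, GQ →* AddMonoid.End (W n))
  (smooth : ∀ (n : ℕ) (w : W n), ∃ L : IntermediateField ℚ Qb, FiniteDimensional ℚ L ∧
    ∀ σ : GQ, (∀ x ∈ L, σ x = x) → act n σ w = w)
  (TW : ∀ n, ℕ → AddMonoid.End (W n))
  (comm : ∀ (n ℓ : ℕ), ℓ.Prime → ℓ ∉ S → ∀ (σ : GQ) (w : W n),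
    TW n ℓ (act n σ w) = act n σ (TW n ℓ w))
  (es : ∀ (n ℓ : ℕ), ℓ.Prime → ℓ ∉ S →
    ∀ A : ValuationSubring Qb, A.LiesOverPrime ℓ → ∀ σ : GQ, A.IsFrobeniusAt σ ℓ →
      ∀ w : W n, act n σ (act n σ w) + ℓ • w = TW n ℓ (act n σ w))
  (κ : ∀ n, H →+ W n)
  (κ_ker : ∀ (n : ℕ) (h : H), κ n h = 0 → ∃ h' : H, h = (p ^ n) • h')
  (κ_T : ∀ (n ℓ : ℕ), ℓ.Prime → ℓ ∉ S → ∀ h : H, κ n (TH ℓ h) = TW n ℓ (κ n h))
  (pr : ∀ n, W n → W n → Qb)
  (prL : ∀ n x x' y, pr n (x + x') y = pr n x y * pr n x' y)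
  (prR : ∀ n x y y', pr n x (y + y') = pr n x y * pr n x y')
  (prne : ∀ n x y, pr n x y ≠ 0)
  (prG : ∀ n (σ : GQ) x y, pr n (act n σ x) (act n σ y) = σ (pr n x y))
  (prnd : ∀ n x, (∀ y, pr n x y = 1) → x = 0)

include hp hpT hpS hcont hfrob faithful tors smooth comm es κ_ker κ_T prL prR prne prG prnd in
/-- the family version of `ann_trace`. -/
theorem ann_trace_fam : ∃ k : ℕ, ∀ (m : ℕ) {ι : Type} (s : Finset ι) (c : ι → ℤ) (g : ι → GQ),
    (∀ w : W (m + k), ∑ i ∈ s, c i • act (m + k) (g i) w = 0) →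
    ∑ i ∈ s, c i • (M (g i)).trace ∈ maximalIdeal T ^ m := by
  obtain ⟨k, hk⟩ := P4.hecke_congr_gen p TH t faithful
  refine ⟨k, fun m ι s c g ha => ?_⟩
  set n : ℕ := m + k with hn
  let e := Module.Free.chooseBasis ℤ H
  choose La hLafd hLa using fun j => smooth n (κ n (e j))
  choose Lb hLbfd hLb using fun (i : ι) j => smooth n (act n (g i)⁻¹ (κ n (e j)))
  obtain ⟨L3, hL3fd, hL3⟩ := hcont m
  obtain ⟨ζ, hζ⟩ : ∃ ζ : Qb, IsPrimitiveRoot ζ (p ^ n) := by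
    have : NeZero (p ^ n) := ⟨(pow_pos hp.pos n).ne'⟩
    have : NeZero ((p ^ n : ℕ) : Qb) := ⟨Nat.cast_ne_zero.mpr (NeZero.ne (p ^ n))⟩
    exact HasEnoughRootsOfUnity.exists_primitiveRoot Qb (p ^ n)
  have hζint : IsIntegral ℚ ζ := (AlgebraicClosure.isAlgebraic ℚ).isIntegral.isIntegral ζ
  let L2 : IntermediateField ℚ Qb := IntermediateField.adjoin ℚ {ζ}
  have hL2fd : FiniteDimensional ℚ L2 := IntermediateField.adjoin.finiteDimensional hζint
  let Lb' : ι → IntermediateField ℚ Qb := fun i => ⨆ j, Lb i j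
  have hLb'fd : ∀ i, FiniteDimensional ℚ (Lb' i) := fun i => inferInstance
  let L : IntermediateField ℚ Qb := ((⨆ j, La j) ⊔ (⨆ i ∈ s, Lb' i)) ⊔ L2 ⊔ L3
  have hLfd : FiniteDimensional ℚ L := inferInstance
  have hLaL : ∀ j, ∀ x ∈ La j, x ∈ L := fun j x hx =>
    ((le_iSup La j).trans (le_sup_left.trans (le_sup_left.trans le_sup_left)) : La j ≤ L) hx
  have hLbL : ∀ i ∈ s, ∀ j, ∀ x ∈ Lb i j, x ∈ L := fun i hi j x hx =>
    (((le_iSup (Lb i) j).trans (le_iSup₂ (f := fun i (_ : i ∈ s) => Lb' i) i hi)).trans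
      (le_sup_right.trans (le_sup_left.trans le_sup_left)) : Lb i j ≤ L) hx
  have hL3L : ∀ x ∈ L3, x ∈ L := fun x hx => (le_sup_right : L3 ≤ L) hx
  have hζL : ζ ∈ L := (le_sup_right.trans le_sup_left : L2 ≤ L)
    (IntermediateField.mem_adjoin_simple_self ℚ ζ)
  choose ℓ hℓ hℓS A hA σ hσ b hb using fun i => S29.frobenius_density_lite L S (g i)
  have hne : ∀ {s : ℕ}, s ∉ S → s ≠ p := fun hs h => hs (h ▸ hpS)
  have hnd : ∀ {s : ℕ}, s.Prime → s ≠ p → ¬ s ∣ p ^ n := by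
    intro s hs hsp hdvd
    exact hsp ((Nat.prime_dvd_prime_iff_eq hs hp).mp (hs.dvd_of_dvd_pow hdvd))
  have hpos : 0 < p ^ n := pow_pos hp.pos n
  have hroot : ∀ i, ∀ z : Qb, z ^ (p ^ n) = 1 → g i z = z ^ (ℓ i ^ b i) := by
    intro i z hz
    have : NeZero (p ^ n) := ⟨hpos.ne'⟩
    obtain ⟨j, -, rfl⟩ := hζ.eq_pow_of_pow_eq_one hz
    rw [← hb i (ζ ^ j) (pow_mem hζL j),
      frob_pow_apply_root (hℓ i) (hA i) (hσ i) (hnd (hℓ i) (hne (hℓS i))) hz]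
  -- the Hecke element kills the basis vectors
  have hbasis : ∀ j, ∑ i ∈ s, c i • dseq (TW n (ℓ i)) (ℓ i) (b i) (κ n (e j)) = 0 := by
    intro j
    set v : W n := κ n (e j) with hv
    have hone : ∀ i ∈ s, dseq (TW n (ℓ i)) (ℓ i) (b i) v =
        act n (g i) v + (ℓ i ^ b i) • act n (g i)⁻¹ v := by
      intro i hi
      set w : W n := act n (g i)⁻¹ v with hw
      have hgw : act n (g i) w = v := by
        rw [hw, ← end_mul_apply, ← map_mul, mul_inv_cancel, map_one]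
        rfl
      have a1 : act n (σ i ^ b i) w = v := by
        rw [act_eq_of_level (act n) w (Lb i j) (hLb i j) (σ i ^ b i) (g i)
          fun x hx => hb i x (hLbL i hi j x hx), hgw]
      have a2 : act n (σ i ^ b i) v = act n (g i) v :=
        act_eq_of_level (act n) v (La j) (hLa j) (σ i ^ b i) (g i)
          fun x hx => hb i x (hLaL j x hx)
      have r1 := quad_relation (act n) (TW n (ℓ i)) (ℓ i) (b i) (σ i)
        (comm n (ℓ i) (hℓ i) (hℓS i) (σ i))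
        (es n (ℓ i) (hℓ i) (hℓS i) (A i) (hA i) (σ i) (hσ i)) w v _ a1 a2
      have : act n (g i) v + (ℓ i ^ b i) • w - dseq (TW n (ℓ i)) (ℓ i) (b i) v = 0 := by
        rw [← r1]; abel
      exact (sub_eq_zero.mp this).symm
    rw [Finset.sum_congr rfl fun i hi => by rw [hone i hi, smul_add], Finset.sum_add_distrib, ha v,
      zero_add]
    exact P4.adjoint_kills (pr n) (prL n) (prR n) (prne n) (act n) (prG n) (prnd n) (p ^ n)
      (tors n) s c g (fun i => ℓ i ^ b i) (fun i _ => hroot i) ha v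
  let P : FreeAlgebra ℤ ℕ := ∑ i ∈ s, c i • dseq (FreeAlgebra.ι ℤ (ℓ i)) (ℓ i) (b i)
  have hall : ∀ h : H, ∃ h' : H, FreeAlgebra.lift ℤ TH P h = (p ^ n) • h' := by
    have hzero : (κ n).toIntLinearMap ∘ₗ (FreeAlgebra.lift ℤ TH P) = 0 := by
      refine e.ext fun j => ?_
      change κ n (FreeAlgebra.lift ℤ TH P (e j)) = 0
      rw [P4.lift_sum_dseq, LinearMap.sum_apply, map_sum, ← hbasis j]
      refine Finset.sum_congr rfl fun i _ => ?_
      rw [LinearMap.smul_apply, map_zsmul,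
        kappa_dseq (κ n) (TH (ℓ i)) (TW n (ℓ i)) (κ_T n (ℓ i) (hℓ i) (hℓS i))]
    intro h
    exact κ_ker n _ (LinearMap.congr_fun hzero h)
  obtain ⟨w, hw⟩ := hk n (by omega) P hall
  have hnk : n - k = m := by omega
  rw [hnk, P4.lift_sum_dseq] at hw
  have hw' : ∑ i ∈ s, c i • dseq (π (t (ℓ i))) (ℓ i) (b i) ∈ maximalIdeal T ^ m := by
    have h1 : ∑ i ∈ s, c i • dseq (π (t (ℓ i))) (ℓ i) (b i) =
        π (∑ i ∈ s, c i • dseq (t (ℓ i)) (ℓ i) (b i)) := by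
      rw [map_sum]
      refine Finset.sum_congr rfl fun i _ => ?_
      rw [map_zsmul, map_dseq]
    rw [h1, hw, map_mul, map_pow, map_natCast]
    exact Ideal.mul_mem_right _ _ (Ideal.pow_mem_pow hpT m)
  have hc : ∀ i, (M (g i)).trace - dseq (π (t (ℓ i))) (ℓ i) (b i) ∈ maximalIdeal T ^ m := by
    intro i
    obtain ⟨htr, hdet⟩ := hfrob (ℓ i) (hℓ i) (hℓS i) (A i) (hA i) (σ i) (hσ i)
    have c1 := trace_congr (maximalIdeal T ^ m) M L3 hL3 (σ i) (g i) (b i) (ℓ i) hdet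
      fun x hx => hb i x (hL3L x hx)
    rwa [htr] at c1
  have : ∑ i ∈ s, c i • (M (g i)).trace =
      ∑ i ∈ s, c i • ((M (g i)).trace - dseq (π (t (ℓ i))) (ℓ i) (b i)) +
        ∑ i ∈ s, c i • dseq (π (t (ℓ i))) (ℓ i) (b i) := by
    rw [← Finset.sum_add_distrib]
    refine Finset.sum_congr rfl fun i _ => ?_
    rw [← smul_add, sub_add_cancel]
  rw [this]
  refine Ideal.add_mem _ (Ideal.sum_mem _ fun i _ => ?_) hw'
  rw [zsmul_eq_mul]
  exact Ideal.mul_mem_left _ _ (hc i)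

include hp hpT hpS hcont hfrob faithful tors smooth comm es κ_ker κ_T prL prR prne prG prnd in
/-- **(P4a)**: the trace of an element of `ℤ[G]` which kills `W (m + k)`. -/
theorem ann_trace : ∃ k : ℕ, ∀ (m : ℕ) (a : GQ →₀ ℤ),
    (∀ w : W (m + k), (a.sum fun g c => c • act (m + k) g w) = 0) →
    (a.sum fun g c => c • (M g).trace) ∈ maximalIdeal T ^ m := by
  obtain ⟨k, hk⟩ := ann_trace_fam p hp hpT S hpS M hcont π t hfrob TH faithful tors act smooth TW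
    comm es κ κ_ker κ_T pr prL prR prne prG prnd
  exact ⟨k, fun m a ha => hk m a.support a id ha⟩

include hp hpT hpS hcont hfrob faithful tors smooth comm es κ_ker κ_T prL prR prne prG prnd in
/-- the family version of `ann_matrix`. -/
theorem ann_matrix_fam {K : Type} [Field K] [IsAlgClosed K] (φ : T →+* K) [IsLocalHom φ]
    (hirr : ∀ W : Submodule K (Fin 2 → K),
      (∀ g, ∀ v ∈ W, ((M g).map φ).mulVec v ∈ W) → W = ⊥ ∨ W = ⊤) :
    ∃ k : ℕ, ∀ (m : ℕ) {ι : Type} (s : Finset ι) (c : ι → ℤ) (g : ι → GQ),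
      (∀ w : W (m + k), ∑ i ∈ s, c i • act (m + k) (g i) w = 0) →
      ∀ i j, (∑ i ∈ s, c i • M (g i)) i j ∈ maximalIdeal T ^ m := by
  obtain ⟨k, hk⟩ := ann_trace_fam p hp hpT S hpS M hcont π t hfrob TH faithful tors act smooth TW
    comm es κ κ_ker κ_T pr prL prR prne prG prnd
  refine ⟨k, fun m ι s c g ha => ?_⟩
  apply trace_determines_mod φ M hirr
  intro h
  have h1 := hk m s c (fun i => g i * h) (fun w => by
    have := ha (act (m + k) h w)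
    simpa only [map_mul, end_mul_apply] using this)
  have h2 : ((∑ i ∈ s, c i • M (g i)) * M h).trace = ∑ i ∈ s, c i • (M (g i * h)).trace := by
    rw [Finset.sum_mul, Matrix.trace_sum]
    refine Finset.sum_congr rfl fun i _ => ?_
    rw [smul_mul_assoc, Matrix.trace_smul, map_mul]
  rw [h2]
  exact h1

include hp hpT hpS hcont hfrob faithful tors smooth comm es κ_ker κ_T prL prR prne prG prnd in
/-- **(P4)**. -/
theorem ann_matrix {K : Type} [Field K] [IsAlgClosed K] (φ : T →+* K) [IsLocalHom φ]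
    (hirr : ∀ W : Submodule K (Fin 2 → K),
      (∀ g, ∀ v ∈ W, ((M g).map φ).mulVec v ∈ W) → W = ⊥ ∨ W = ⊤) :
    ∃ k : ℕ, ∀ (m : ℕ) (a : GQ →₀ ℤ),
      (∀ w : W (m + k), (a.sum fun g c => c • act (m + k) g w) = 0) →
      ∀ i j, (a.sum fun g c => c • M g) i j ∈ maximalIdeal T ^ m := by
  obtain ⟨k, hk⟩ := ann_matrix_fam p hp hpT S hpS M hcont π t hfrob TH faithful tors act smooth TW
    comm es κ κ_ker κ_T pr prL prR prne prG prnd φ hirr
  exact ⟨k, fun m a ha => hk m a.support a id ha⟩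

end

end Fermat.Agent.S32
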