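import Fermat.Agent.S41.WP.Conc
import Fermat.Agent.S19.Pair.Main

set_option autoImplicit false

/-!
# S32 / Psi : `V_m(N) ≃ J₀(N)[m]`, and the properties of every Weil pairing `IsWeil N m e`
-/

noncomputable section

namespace Fermat.Agent.S32.Psi

open AlgebraicCurve ModularCurve
open Fermat.Agent.S24 (Kb FN IsFF1 isFF1_FN)
open Fermat.Agent.S19
open Fermat.Agent.S19.Pair
open Fermat.Agent.GES
open Fermat.Agent.S17.WMW (aG)
open Fermat.Agent.S41.WP

variable (N : ℕ) [NeZero N] (m : ℕ) [NeZero m]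

/-- `(div f)/m` as a divisor of degree `0`. -/
def dz (f : DN N m) : Divisor.degZero (K := Kb) (F := FN N) :=
  ⟨dv (isFF1_FN N) m (cf f), degree_dv (isFF1_FN N) (inD_coe f)⟩

omit [NeZero N] in
theorem mk_eq_zero_of_isDiv {D : Divisor.degZero (K := Kb) (F := FN N)} {s : FN N}
    (hs : IsDiv s (D : Divisor Kb (FN N))) : Pic0.mk D = 0 :=
  (Fermat.Agent.S19.ND.mk_eq_zero_iff D).2 ⟨s, hs⟩

theorem smul_mk_dz (f : DN N m) : (m : ℤ) • Pic0.mk (dz N m f) = 0 := by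
  have h1 : (m : ℤ) • Pic0.mk (dz N m f) = Pic0.mk ((m : ℤ) • dz N m f) := rfl
  rw [h1]
  exact mk_eq_zero_of_isDiv N (s := cf f) (isDiv_dv (isFF1_FN N) (inD_coe f))

/-- the class of `(div f)/m`. -/
def cls (f : DN N m) : TM N (m : ℤ) :=
  ⟨Pic0.mk (dz N m f), (Submodule.mem_torsionBy_iff _ _).2 (smul_mk_dz N m f)⟩

theorem cls_mul (f g : DN N m) : cls N m (f * g) = cls N m f + cls N m g := by
  apply Subtype.ext
  show Pic0.mk (dz N m (f * g)) = Pic0.mk (dz N m f) + Pic0.mk (dz N m g)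
  rw [← Pic0.mk_add]
  congr 1
  apply Subtype.ext
  show dv (isFF1_FN N) m (cf (f * g)) = dv (isFF1_FN N) m (cf f) + dv (isFF1_FN N) m (cf g)
  have : cf (f * g) = cf f * cf g := by simp [cf]
  rw [this, dv_mul _ (inD_coe f) (inD_coe g)]

theorem cls_eq_zero_iff (f : DN N m) : cls N m f = 0 ↔ Vm.mk f = 0 := by
  have hm0 : 0 < m := Nat.pos_of_ne_zero (NeZero.ne m)
  constructor
  · intro h0
    have h1 : Pic0.mk (dz N m f) = 0 := congrArg Subtype.val h0
    obtain ⟨g, hg⟩ := (Fermat.Agent.S19.ND.mk_eq_zero_iff _).1 h1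
    have hg' : IsDiv g (dv (isFF1_FN N) m (cf f)) := hg
    obtain ⟨c, hc, hfc⟩ := isDiv_exists_const (isFF1_FN N) (isDiv_zpow hg' (m : ℤ))
      (isDiv_dv (isFF1_FN N) (inD_coe f))
    obtain ⟨c', hc'⟩ := IsAlgClosed.exists_pow_nat_eq c hm0
    refine Vm.mk_eq_zero_of_pow_eq (NeZero.ne m) f (algebraMap Kb (FN N) c' * g) ?_
    rw [mul_pow, ← map_pow, hc']
    rw [zpow_natCast] at hfc
    exact hfc.symm
  · intro h0
    obtain ⟨w, hw⟩ := (Vm.mk_eq_zero_iff f).1 h0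
    apply Subtype.ext
    show Pic0.mk (dz N m f) = 0
    refine mk_eq_zero_of_isDiv N (s := (w : FN N)) ⟨w.ne_zero, fun v => ?_⟩
    show v.ord (w : FN N) = dv (isFF1_FN N) m (cf f) v
    have h1 : cf f = (w : FN N) ^ m := by
      show ((f : (FN N)ˣ) : FN N) = _
      rw [← hw, Units.val_pow_eq_pow_val]
    rw [dv_apply, h1, Fermat.Agent.S24.ord_pow,
      Int.mul_ediv_cancel_left _ (by exact_mod_cast NeZero.ne m)]

theorem cls_one : cls N m 1 = 0 := (cls_eq_zero_iff N m 1).2 rfl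

theorem cls_inv (f : DN N m) : cls N m f⁻¹ = - cls N m f := by
  have h := cls_mul N m f f⁻¹
  rw [mul_inv_cancel, cls_one] at h
  exact (neg_eq_of_add_eq_zero_right h.symm).symm

theorem cls_congr {f g : DN N m} (h : Vm.mk f = Vm.mk g) : cls N m f = cls N m g := by
  have h1 : Vm.mk (f * g⁻¹) = 0 := by rw [Vm.mk_mul, Vm.mk_inv, h, add_neg_cancel]
  have h2 := (cls_eq_zero_iff N m _).2 h1
  rw [cls_mul, cls_inv] at h2
  exact add_neg_eq_zero.1 h2

/-- the homomorphism. -/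
def psiHom : VN N m →+ TM N (m : ℤ) :=
  AddMonoidHom.mk' (fun a => cls N m (rep a)) (by
    intro a b
    rw [← cls_mul]
    apply cls_congr
    rw [Vm.mk_mul, mk_rep, mk_rep, mk_rep])

theorem psiHom_mk (f : DN N m) : psiHom N m (Vm.mk f) = cls N m f :=
  cls_congr N m (mk_rep _)

theorem psiHom_injective : Function.Injective (psiHom N m) := by
  rw [injective_iff_map_eq_zero]
  intro a ha
  obtain ⟨f, rfl⟩ := Vm.mk_surjective a
  rw [psiHom_mk] at ha
  exact (cls_eq_zero_iff N m f).1 ha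

/-- a function with `div f = m D` gives an element of `DN`. -/
def ofDiv {f : FN N} {D : Divisor Kb (FN N)} (hf : IsDiv f ((m : ℤ) • D)) : DN N m :=
  ⟨Units.mk0 f hf.1, fun v => by
    show (m : ℤ) ∣ v.ord f
    rw [hf.2 v, Finsupp.smul_apply, smul_eq_mul]
    exact dvd_mul_right _ _⟩

theorem cls_ofDiv {f : FN N} {D : Divisor.degZero (K := Kb) (F := FN N)}
    (hf : IsDiv f ((m : ℤ) • (D : Divisor Kb (FN N)))) :
    ((cls N m (ofDiv N m hf) : TM N (m : ℤ)) : JZero N) = Pic0.mk D := by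
  show Pic0.mk (dz N m (ofDiv N m hf)) = Pic0.mk D
  congr 1
  apply Subtype.ext
  exact dv_eq_of_isDiv (isFF1_FN N) hf

theorem psiHom_surjective : Function.Surjective (psiHom N m) := by
  intro x
  obtain ⟨D, hD⟩ := Pic0.mk_surjective x.1
  have hx : (m : ℤ) • x.1 = 0 := (Submodule.mem_torsionBy_iff _ _).1 x.2
  have h1 : Pic0.mk ((m : ℤ) • D) = 0 := by
    have : Pic0.mk ((m : ℤ) • D) = (m : ℤ) • Pic0.mk D := rfl
    rw [this, hD, hx]
  obtain ⟨f, hf⟩ := exists_isDiv_of_mk_eq_zero N h1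
  have hf' : IsDiv f ((m : ℤ) • (D : Divisor Kb (FN N))) := hf
  refine ⟨Vm.mk (ofDiv N m hf'), ?_⟩
  rw [psiHom_mk]
  apply Subtype.ext
  rw [cls_ofDiv, hD]

/-- **`V_m(N) ≃ J₀(N)[m]`**. -/
def psi : VN N m ≃+ TM N (m : ℤ) :=
  AddEquiv.ofBijective (psiHom N m) ⟨psiHom_injective N m, psiHom_surjective N m⟩

theorem psi_mk (f : DN N m) : psi N m (Vm.mk f) = cls N m f := psiHom_mk N m f

theorem coe_psi_mk (f : DN N m) :
    ((psi N m (Vm.mk f) : TM N (m : ℤ)) : JZero N) = Pic0.mk (dz N m f) := by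
  rw [psi_mk]; rfl

theorem psi_symm_of_isDiv {x : TM N (m : ℤ)} {f : FN N}
    {D : Divisor.degZero (K := Kb) (F := FN N)} (hD : Pic0.mk D = x.1)
    (hf : IsDiv f ((m : ℤ) • (D : Divisor Kb (FN N)))) :
    (psi N m).symm x = Vm.mk (ofDiv N m hf) := by
  rw [AddEquiv.symm_apply_eq, psi_mk]
  apply Subtype.ext
  rw [cls_ofDiv, hD]

theorem psi_rhoV (σ : GQ) (a : VN N m) : psi N m (rhoV N m σ a) = σ • psi N m a := by
  obtain ⟨f, rfl⟩ := Vm.mk_surjective a
  rw [rhoV_mk, psi_mk, psi_mk]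
  apply Subtype.ext
  rw [coe_smul_TM]
  show Pic0.mk (dz N m ⟨galU N σ f, galU_mem N m σ f f.2⟩) = aG N σ • Pic0.mk (dz N m f)
  rw [SemilinearAut.pic0_smul_mk]
  congr 1
  apply Subtype.ext
  rw [SemilinearAut.coe_degZeroSMulHom]
  exact dv_smul (isFF1_FN N) (aG N σ) (cf f)

theorem psi_symm_smul (σ : GQ) (x : TM N (m : ℤ)) :
    (psi N m).symm (σ • x) = rhoV N m σ ((psi N m).symm x) := by
  rw [AddEquiv.symm_apply_eq, psi_rhoV, AddEquiv.apply_symm_apply]

/-- the Weil pairing transported to `J₀(N)[m]`. -/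
def eW (x y : TM N (m : ℤ)) : Kb :=
  weil (isFF1_FN N) m ((psi N m).symm x) ((psi N m).symm y)

theorem isWeil_eW (hWR : WRStatement) : IsWeil N (m : ℤ) (eW N m) := by
  intro x y D f φ hrep hφ
  have hEd : Pic0.mk (⟨Ed N y.1, degree_Ed N y.1⟩ : Divisor.degZero (K := Kb) (F := FN N)) = y.1 :=
    Fermat.Agent.S19.Pair.mk_Ed N y.1
  have hφ' : IsDiv φ ((m : ℤ) • ((⟨Ed N y.1, degree_Ed N y.1⟩ :
      Divisor.degZero (K := Kb) (F := FN N)) : Divisor Kb (FN N))) := hφ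
  unfold eW
  rw [psi_symm_of_isDiv N m hrep.1 hrep.2.1, psi_symm_of_isDiv N m hEd hφ']
  have hd : Disj (K := Kb) (cf (ofDiv N m hrep.2.1)) (cf (ofDiv N m hφ')) := by
    intro v
    show v.ord f = 0 ∨ v.ord φ = 0
    rcases IsRep_disj N hrep y v with h0 | h0
    · left; rw [hrep.2.1.2 v, Finsupp.smul_apply, h0, smul_zero]
    · right; rw [hφ.2 v, Finsupp.smul_apply, h0, smul_zero]
  rw [weil_mk _ hWR _ _ hd]
  unfold W
  have e1 : dv (isFF1_FN N) m (cf (ofDiv N m hφ')) = Ed N y.1 := dv_eq_of_isDiv _ hφ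
  have e2 : dv (isFF1_FN N) m (cf (ofDiv N m hrep.2.1)) = (D : Divisor Kb (FN N)) :=
    dv_eq_of_isDiv _ hrep.2.1
  have n1 := evD_ne_zero (isFF1_FN N) (hd.symm.unitOn (m := m) (isFF1_FN N) hφ.1)
  rw [e2] at n1
  rw [e1, e2]
  exact div_mul_cancel₀ _ n1

theorem isWeil_unique {e e' : TM N (m : ℤ) → TM N (m : ℤ) → Kb} (he : IsWeil N (m : ℤ) e)
    (he' : IsWeil N (m : ℤ) e') : e = e' := by
  funext x y
  obtain ⟨D, f, hrep⟩ := Fermat.Agent.S19.ND.exists_isRep N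
    (by exact_mod_cast NeZero.ne m : (m : ℤ) ≠ 0) x
  obtain ⟨φ, hφ⟩ := exists_phi N (m : ℤ) y
  have h1 := he x y D f φ hrep hφ
  have h2 := he' x y D f φ hrep hφ
  have hu : UnitOn (D : Divisor Kb (FN N)) φ := isDiv_unitOn hφ fun v => by
    rcases IsRep_disj N hrep y v with h0 | h0
    · exact Or.inl h0
    · right; rw [Finsupp.smul_apply, h0, smul_zero]
  exact mul_right_cancel₀ (evD_ne_zero (hFF N) hu) (h1.trans h2.symm)

section cor

variable {N m}
variable (hWR : WRStatement) {e : TM N (m : ℤ) → TM N (m : ℤ) → Kb} (he : IsWeil N (m : ℤ) e)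

include hWR he

theorem e_eq : e = eW N m := isWeil_unique N m he (isWeil_eW N m hWR)

theorem e_add_left (x x' y : TM N (m : ℤ)) : e (x + x') y = e x y * e x' y := by
  rw [e_eq hWR he]
  unfold eW
  rw [map_add, weil_add_left _ hWR]

theorem e_add_right (x y y' : TM N (m : ℤ)) : e x (y + y') = e x y * e x y' := by
  rw [e_eq hWR he]
  unfold eW
  rw [map_add, weil_add_right _ hWR]

theorem e_pow (x y : TM N (m : ℤ)) : e x y ^ m = 1 := by
  rw [e_eq hWR he]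
  exact weil_pow _ hWR _ _

theorem e_ne_zero (x y : TM N (m : ℤ)) : e x y ≠ 0 := by
  rw [e_eq hWR he]
  exact weil_ne_zero _ _ _

theorem e_symm (x y : TM N (m : ℤ)) : e x y * e y x = 1 := by
  rw [e_eq hWR he]
  exact weil_symm _ hWR _ _

theorem e_smul (σ : GQ) (x y : TM N (m : ℤ)) : e (σ • x) (σ • y) = σ (e x y) := by
  rw [e_eq hWR he]
  unfold eW
  rw [psi_symm_smul, psi_symm_smul, weil_rhoV N hWR]

theorem e_nd (x : TM N (m : ℤ)) (hx : ∀ y, e x y = 1) : x = 0 := by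
  rw [e_eq hWR he] at hx
  have h1 := weil_nd N hWR ((psi N m).symm x) fun b => by
    have := hx (psi N m b)
    unfold eW at this
    rwa [AddEquiv.symm_apply_apply] at this
  rwa [AddEquiv.map_eq_zero_iff] at h1

end cor

end Fermat.Agent.S32.Psi
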