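import Fermat.Agent.S32.Closure
import Fermat.Agent.S32.Ann
import Fermat.Agent.S32.Psi
import Fermat.Agent.S32.P5.Leaves
import Fermat.Agent.S31.Restrict
import Fermat.Agent.S31.Exists
import Fermat.Agent.S19.WR.Main
import Fermat.Agent.S19.Pair.Main
import Fermat.Agent.S19.ND.Main
import Fermat.Agent.S19.Norm.Main
import Fermat.Agent.S19.Lat.Main
import Fermat.Agent.S19.RED.Main
import Fermat.Agent.S19.Move.Main
import Fermat.Agent.S19.Integ.Main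
import Fermat.Agent.S54.Frob

/-!
# S32 / Top : the final assembly
-/

set_option autoImplicit false

namespace Fermat.Agent.S32

open CuspForm Fermat.Agent.S31 Fermat.Agent.S19

/-- trace and determinant from the characteristic polynomial. -/
theorem trace_det_of_charpoly' {T : Type*} [CommRing T] [Nontrivial T]
    (X : Matrix (Fin 2) (Fin 2) T) (a d : T)
    (h : X.charpoly = Polynomial.X ^ 2 - Polynomial.C a * Polynomial.X + Polynomial.C d) :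
    X.trace = a ∧ X.det = d := by
  rw [Matrix.charpoly_fin_two] at h
  constructor
  · have := congrArg (fun f => Polynomial.coeff f 1) h
    simpa [Polynomial.coeff_X, Polynomial.coeff_C, Polynomial.coeff_X_pow] using this
  · have := congrArg (fun f => Polynomial.coeff f 0) h
    simpa [Polynomial.coeff_X, Polynomial.coeff_C, Polynomial.coeff_X_pow] using this

/-- **The geometric input**: every finite Galois module killed by the annihilator of the Kummer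
classes `V_{p^n}(N)` in `ℤ[G_ℚ]` is flat at `p ∤ N`. -/
theorem flat_of_ann (N p : ℕ) [NeZero N] [Fact p.Prime] (hpN : ¬ p ∣ N) (n : ℕ)
    {X : Type} [AddCommGroup X] [Finite X] (actX : GQ →* AddMonoid.End X)
    (hann : ∀ a : GQ →₀ ℤ,
      (∀ w : GES.VN N (p ^ n), (a.sum fun g c => c • GES.actV N (p ^ n) g w) = 0) →
      ∀ x : X, (a.sum fun g c => c • actX g x) = 0) :
    Formal.Conclusion p X (fun σ x => actX σ x) := by
  have hp : p.Prime := Fact.out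
  have : NeZero (p ^ n) := ⟨pow_ne_zero _ hp.ne_zero⟩
  have hm : (0 : ℤ) < ((p ^ n : ℕ) : ℤ) := Int.natCast_pos.2 (pow_pos hp.pos n)
  have hQ : QIntStatement N p := RED.qint hp hpN
  obtain ⟨e, hW, hne, hmul, heq⟩ :=
    Pair.pair N wr ((p ^ n : ℕ) : ℤ) (fun x => ND.exists_isRep N hm.ne' x)
  have hnd := ND.nd wr N ((p ^ n : ℕ) : ℤ) hm
  have hinteg := integ N p ((p ^ n : ℕ) : ℤ) hm (RED.l1 hp hpN) hQ (Move.l3 N p hp hpN)
    (Lat.lat N hp hQ) norm pch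
  obtain ⟨A, hA⟩ := Fermat.Agent.S54.exists_liesOverPrime hp
  have hA' : ((p : Qb))⁻¹ ∉ A := by
    intro h
    have h1 : (p : Qb) ∈ A.nonunits := hA
    have h2 : (p : Qb) ≠ 0 := Nat.cast_ne_zero.2 hp.ne_zero
    have h3 := (ValuationSubring.mem_nonunits_iff_exists_mem_maximalIdeal).1 h1
    obtain ⟨ha, hm⟩ := h3
    apply (IsLocalRing.mem_maximalIdeal _).1 hm
    exact IsUnit.of_mul_eq_one (⟨_, h⟩ : A) (Subtype.ext (mul_inv_cancel₀ h2))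
  have hfin : Finite (TM N ((p ^ n : ℕ) : ℤ)) := finite_TM N hm.ne'
  refine closure p (M := TM N ((p ^ n : ℕ) : ℤ))
    (DistribMulAction.toAddMonoidEnd GQ (TM N ((p ^ n : ℕ) : ℤ))) actX e hmul
    (Psi.e_add_right wr hW) hne heq (hnd e hW) A hA' (fun x => hinteg e hW A hA x) ?_
  intro a ha
  apply hann
  intro w
  apply (Psi.psi N (p ^ n)).injective
  rw [map_zero, ← ha (Psi.psi N (p ^ n) w)]
  simp only [Finsupp.sum, map_sum, map_zsmul]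
  refine Finset.sum_congr rfl fun g _ => ?_
  congr 1
  exact Psi.psi_rhoV N (p ^ n) g w

variable {p : ℕ} {N : ℕ} [NeZero N] {S : Finset ℕ}
  {𝒪 : Type} [CommRing 𝒪] [IsDomain 𝒪] [IsDiscreteValuationRing 𝒪]
  [IsAdicComplete (IsLocalRing.maximalIdeal 𝒪) 𝒪]
  {θ : CuspForm.heckeAlgebra N 2 (↑S : Set ℕ) →+* IsLocalRing.ResidueField 𝒪}
  {T : Type} [CommRing T] [IsLocalRing T] [IsNoetherianRing T]
  [IsAdicComplete (IsLocalRing.maximalIdeal T) T] [Algebra 𝒪 T] [IsLocalHom (algebraMap 𝒪 T)]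
  [Module.Finite 𝒪 T] [Module.Free 𝒪 T]

/-- **(K)**: for `n = m + k` the annihilator of `V_{p^n}(N)` maps `V` into `𝔪 ^ m V`. -/
theorem exists_kill (hp : p.Prime)
    (hp𝒪 : (p : 𝒪) ∈ IsLocalRing.maximalIdeal 𝒪) (hpS : p ∈ S)
    (hNS : ∀ q : ℕ, q.Prime → q ∣ N → q ∈ S)
    (H : CuspForm.HeckeGaloisRepDatum N (↑S : Set ℕ) 𝒪 θ T) :
    ∃ k : ℕ, ∀ (m : ℕ) (a : GQ →₀ ℤ),
      (∀ w : GES.VN N (p ^ (m + k)), (a.sum fun g c => c • GES.actV N (p ^ (m + k)) g w) = 0) →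
      ∀ v : H.ρ.V, (a.sum fun g c => c • H.ρ.ρ g v) ∈
        (IsLocalRing.maximalIdeal T ^ m) • (⊤ : Submodule T H.ρ.V) := by
  classical
  have : NeZero p := ⟨hp.ne_zero⟩
  have hpow : ∀ n : ℕ, NeZero (p ^ n) := fun n => ⟨pow_ne_zero _ hp.ne_zero⟩
  let Sys := S30.kummerSys N p
  obtain ⟨M, -, hMchar, hMcont, hMirr, hMsum⟩ := P5.exists_matrix_form' H.ρ H.residual_absIrr
  have hpT : (p : T) ∈ IsLocalRing.maximalIdeal T := by
    have h1 : (p : T) = algebraMap 𝒪 T (p : 𝒪) := (map_natCast (algebraMap 𝒪 T) p).symm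
    rw [h1]
    exact map_nonunit (algebraMap 𝒪 T) _ hp𝒪
  let cond : ℕ → Prop := fun ℓ => ℓ.Prime ∧ ¬ ℓ ∣ N ∧ ℓ ∉ (↑S : Set ℕ)
  let tS : ℕ → heckeAlgebra N 2 (↑S : Set ℕ) := fun ℓ =>
    if h : cond ℓ then heckeAlgebra.T h.1 h.2.1 h.2.2 else 0
  let THS : ℕ → Module.End ℤ Sys.H := fun ℓ => if cond ℓ then Sys.T ℓ else 0
  have hcond : ∀ ℓ : ℕ, ℓ.Prime → ℓ ∉ S → cond ℓ := fun ℓ hℓ hℓS =>
    ⟨hℓ, fun hd => hℓS (hNS ℓ hℓ hd), fun h => hℓS (Finset.mem_coe.mp h)⟩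
  have hndvd : ∀ ℓ : ℕ, ℓ.Prime → ℓ ∉ S → ¬ ℓ ∣ N * p := by
    intro ℓ hℓ hℓS hd
    rcases (Nat.Prime.dvd_mul hℓ).mp hd with h | h
    · exact hℓS (hNS ℓ hℓ h)
    · exact hℓS (((Nat.prime_dvd_prime_iff_eq hℓ hp).mp h) ▸ hpS)
  have hTHS : ∀ ℓ : ℕ, ℓ.Prime → ℓ ∉ S → THS ℓ = Sys.T ℓ := fun ℓ hℓ hℓS =>
    if_pos (hcond ℓ hℓ hℓS)
  have hfrob : ∀ ℓ : ℕ, ℓ.Prime → ℓ ∉ S → ∀ A : ValuationSubring Qb, A.LiesOverPrime ℓ →
      ∀ σ : GQ, A.IsFrobeniusAt σ ℓ → (M σ).trace = H.π (tS ℓ) ∧ (M σ).det = (ℓ : T) := by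
    intro ℓ hℓ hℓS A hA σ hσ
    have hc := hcond ℓ hℓ hℓS
    have h1 := H.charpoly_frob ℓ hℓ hc.2.1 hc.2.2 A hA σ hσ
    rw [← hMchar] at h1
    have h2 : tS ℓ = heckeAlgebra.T hc.1 hc.2.1 hc.2.2 := dif_pos hc
    rw [h2]
    exact trace_det_of_charpoly' _ _ _ h1
  have faithful : ∀ Q : FreeAlgebra ℤ ℕ, FreeAlgebra.lift ℤ THS Q = 0 →
      FreeAlgebra.lift ℤ tS Q = 0 := by
    refine restrict_faithful (heckeAlgebra N 2 (↑S : Set ℕ)).subtype Subtype.val_injective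
      cond Sys.T (heckeFam N) tS ?_ Sys.link
    intro ℓ
    by_cases h : cond ℓ
    · have h2 : tS ℓ = heckeAlgebra.T h.1 h.2.1 h.2.2 := dif_pos h
      rw [h2, if_pos h]
      have h3 : heckeFam N ℓ = CuspForm.heckeTLin 2 h.1 h.2.1 := dif_pos ⟨h.1, h.2.1⟩
      rw [h3]
      rfl
    · have h2 : tS ℓ = 0 := dif_neg h
      rw [h2, if_neg h, map_zero]
  obtain ⟨k, hk⟩ := ann_matrix p hp hpT S hpS M hMcont H.π tS hfrob THS faithful Sys.tors Sys.act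
    Sys.smooth Sys.TW
    (fun n ℓ hℓ hℓS => Sys.comm n ℓ hℓ (hndvd ℓ hℓ hℓS))
    (fun n ℓ hℓ hℓS => Sys.es n ℓ hℓ (hndvd ℓ hℓ hℓS))
    Sys.κ Sys.κ_ker
    (fun n ℓ hℓ hℓS h => by rw [hTHS ℓ hℓ hℓS]; exact Sys.κ_T n ℓ hℓ (hndvd ℓ hℓ hℓS) h)
    (fun n => S41.WP.weil (S24.isFF1_FN N) (p ^ n))
    (fun n x x' y => S41.WP.weil_add_left _ wr x x' y)
    (fun n x y y' => S41.WP.weil_add_right _ wr x y y')
    (fun n x y => S41.WP.weil_ne_zero _ x y)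
    (fun n σ x y => S41.WP.weil_rhoV N wr σ x y)
    (fun n x hx => S41.WP.weil_nd N wr x hx)
    ((algebraMap (IsLocalRing.ResidueField T)
      (AlgebraicClosure (IsLocalRing.ResidueField T))).comp (IsLocalRing.residue T))
    hMirr
  exact ⟨k, fun m a ha v => hMsum a _ (hk m a ha) v⟩

/-- **S32**. -/
theorem top [Finite (IsLocalRing.ResidueField 𝒪)]
    (hp : p.Prime) (hp𝒪 : (p : 𝒪) ∈ IsLocalRing.maximalIdeal 𝒪) (hpN : ¬ p ∣ N)
    (hpS : p ∈ S) (hNS : ∀ q : ℕ, q.Prime → q ∣ N → q ∈ S)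
    (H : CuspForm.HeckeGaloisRepDatum N (↑S : Set ℕ) 𝒪 θ T) :
    H.ρ.IsFlatAt p := by
  have : Fact p.Prime := ⟨hp⟩
  refine ⟨P5.finite_residueField H.residue_surjective, fun I hI => ?_⟩
  obtain ⟨k, hk⟩ := exists_kill hp hp𝒪 hpS hNS H
  obtain ⟨m, hm⟩ := P5.exists_pow_le I
  have hfin : Finite (H.ρ.V ⧸ (I • (⊤ : Submodule T H.ρ.V))) := P5.finite_quot H.ρ I
  exact flat_of_ann N p hpN (m + k) (P5.levelHom H.ρ I)
    (fun a ha x => P5.sum_levelHom_eq_zero H.ρ I hm a (hk m a ha) x)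

end Fermat.Agent.S32
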