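import Fermat.Agent.S31.Core
import Fermat.Agent.S32.TraceMod

/-!
# S32 / (P4), second version : the annihilator of `W n` in `ℤ[G_ℚ]` kills `ρ` modulo `𝔪 ^ m`
-/

set_option autoImplicit false

namespace Fermat.Agent.S32.AnnB

open IsLocalRing Fermat.Agent.S31

/-- Artin-Rees for Hecke polynomials. -/
theorem hecke_congr_poly {H : Type*} [AddCommGroup H] [Module.Free ℤ H] [Module.Finite ℤ H] (p : ℕ)
    (TH : ℕ → Module.End ℤ H) {𝕋 : Type*} [CommRing 𝕋] (t : ℕ → 𝕋)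
    (faithful : ∀ P : FreeAlgebra ℤ ℕ, FreeAlgebra.lift ℤ TH P = 0 → FreeAlgebra.lift ℤ t P = 0) :
    ∃ k : ℕ, ∀ n ≥ k, ∀ P : FreeAlgebra ℤ ℕ,
      (∀ h : H, ∃ h' : H, FreeAlgebra.lift ℤ TH P h = (p ^ n) • h') →
      ∃ w : 𝕋, FreeAlgebra.lift ℤ t P = (p : 𝕋) ^ (n - k) * w := by
  obtain ⟨k, hk⟩ := artin_rees_end p (Subalgebra.toSubmodule (FreeAlgebra.lift ℤ TH).range)
  refine ⟨k, fun n hn P hdvd => ?_⟩
  have hx : FreeAlgebra.lift ℤ TH P ∈ Subalgebra.toSubmodule (FreeAlgebra.lift ℤ TH).range :=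
    ⟨P, rfl⟩
  obtain ⟨z, ⟨Q, hQ⟩, hz⟩ := hk n hn _ hx hdvd
  have h0 : FreeAlgebra.lift ℤ TH (P - ((p ^ (n - k) : ℕ) : ℤ) • Q) = 0 := by
    rw [map_sub, map_smul, hz, sub_eq_zero]
    congr 1
    exact hQ.symm
  have h1 := faithful _ h0
  rw [map_sub, map_smul, sub_eq_zero] at h1
  refine ⟨FreeAlgebra.lift ℤ t Q, ?_⟩
  rw [h1, zsmul_eq_mul]
  push_cast
  rfl

/-- the Hecke polynomial attached to a family. -/
noncomputable def polyOf (a : GQ →₀ ℤ) (ℓ b : GQ → ℕ) : FreeAlgebra ℤ ℕ :=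
  a.sum fun g c => c • dseq (FreeAlgebra.ι ℤ (ℓ g)) (ℓ g) (b g)

theorem lift_polyOf {R : Type*} [Ring R] [Algebra ℤ R] (f : ℕ → R) (a : GQ →₀ ℤ) (ℓ b : GQ → ℕ) :
    FreeAlgebra.lift ℤ f (polyOf a ℓ b) = a.sum fun g c => c • dseq (f (ℓ g)) (ℓ g) (b g) := by
  rw [polyOf, Finsupp.sum, Finsupp.sum, map_sum]
  refine Finset.sum_congr rfl fun g _ => ?_
  have h1 := map_dseq (FreeAlgebra.lift ℤ f : FreeAlgebra ℤ ℕ →ₐ[ℤ] R).toRingHom
    (FreeAlgebra.ι ℤ (ℓ g)) (ℓ g) (b g)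
  simp only [AlgHom.toRingHom_eq_coe, RingHom.coe_coe, FreeAlgebra.lift_ι_apply] at h1
  rw [map_zsmul, h1]

section adj

variable {W : Type} [AddCommGroup W] (m : ℕ) (act : GQ →* AddMonoid.End W)
  (tors : ∀ w : W, m • w = 0) (e : W → W → Qb)
  (hl : ∀ x x' y, e (x + x') y = e x y * e x' y) (hr : ∀ x y y', e x (y + y') = e x y * e x y')
  (h0 : ∀ x y, e x y ≠ 0) (heq : ∀ (σ : GQ) x y, e (act σ x) (act σ y) = σ (e x y))
  (hnd : ∀ x, (∀ y, e x y = 1) → x = 0)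

/-- the pairing as a homomorphism in the first variable. -/
noncomputable def homL (y : W) : W →+ Additive Qbˣ :=
  AddMonoidHom.mk' (fun x => Additive.ofMul (Units.mk0 (e x y) (h0 x y)))
    (fun x x' => by
      rw [← ofMul_mul]
      congr 1
      exact Units.ext (hl x x' y))

/-- the pairing as a homomorphism in the second variable. -/
noncomputable def homR (x : W) : W →+ Additive Qbˣ :=
  AddMonoidHom.mk' (fun y => Additive.ofMul (Units.mk0 (e x y) (h0 x y)))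
    (fun y y' => by
      rw [← ofMul_mul]
      congr 1
      exact Units.ext (hr x y y'))

include tors hl h0 in
theorem pair_pow (x y : W) : e x y ^ m = 1 := by
  have h1 : m • homL e hl h0 y x = 0 := by rw [← map_nsmul, tors, map_zero]
  have h2 : (Units.mk0 (e x y) (h0 x y)) ^ m = 1 := h1
  have h3 := congrArg Units.val h2
  simpa using h3

include tors hl hr h0 heq hnd in
/-- the adjoint of an element which kills `W` kills `W`. -/
theorem adjoint_kill (a : GQ →₀ ℤ) (c : GQ → ℕ)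
    (hc : ∀ g ∈ a.support, ∀ ζ : Qb, ζ ^ m = 1 → g ζ = ζ ^ c g)
    (hkill : ∀ w : W, (a.sum fun g z => z • act g w) = 0) (w : W) :
    (a.sum fun g z => z • (c g • act g⁻¹ w)) = 0 := by
  apply hnd
  intro y
  have key : homL e hl h0 y (a.sum fun g z => z • (c g • act g⁻¹ w)) = 0 := by
    rw [Finsupp.sum, map_sum]
    have h1 : homR e hr h0 w (a.sum fun g z => z • act g y) = 0 := by rw [hkill, map_zero]
    rw [Finsupp.sum, map_sum] at h1
    rw [← h1]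
    refine Finset.sum_congr rfl fun g hg => ?_
    rw [map_zsmul, map_zsmul, map_nsmul]
    congr 1
    have h2 : e w (act g y) = e (act g⁻¹ w) y ^ c g := by
      have h3 := heq g (act g⁻¹ w) y
      have h4 : act g (act g⁻¹ w) = w := by
        rw [← end_mul_apply, ← map_mul, mul_inv_cancel, map_one]
        rfl
      rw [h4] at h3
      rw [h3, hc g hg _ (pair_pow m tors e hl h0 _ _)]
    show Additive.ofMul ((Units.mk0 (e (act g⁻¹ w) y) (h0 _ _)) ^ c g) =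
      Additive.ofMul (Units.mk0 (e w (act g y)) (h0 _ _))
    congr 1
    apply Units.ext
    rw [Units.val_pow_eq_pow_val, Units.val_mk0, Units.val_mk0, h2]
  have h5 : Units.mk0 (e _ y) (h0 _ y) = 1 := key
  exact congrArg Units.val h5

end adj

section

variable {T : Type} [CommRing T] [IsLocalRing T]
  (p : ℕ) (hp : p.Prime) (hpT : (p : T) ∈ maximalIdeal T) (S : Finset ℕ) (hpS : p ∈ S)
  (M : GQ →* Matrix (Fin 2) (Fin 2) T)
  (hcont : ∀ n : ℕ, ∃ L : IntermediateField ℚ Qb, FiniteDimensional ℚ L ∧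
    ∀ σ : GQ, (∀ x ∈ L, σ x = x) → ∀ i j, (M σ - 1) i j ∈ maximalIdeal T ^ n)
  {𝕋 : Type} [CommRing 𝕋] (π : 𝕋 →+* T) (t : ℕ → 𝕋)
  (hfrob : ∀ ℓ : ℕ, ℓ.Prime → ℓ ∉ S → ∀ A : ValuationSubring Qb, A.LiesOverPrime ℓ →
    ∀ σ : GQ, A.IsFrobeniusAt σ ℓ → (M σ).trace = π (t ℓ) ∧ (M σ).det = (ℓ : T))
  {H : Type} [AddCommGroup H] [Module.Free ℤ H] [Module.Finite ℤ H] (TH : ℕ → Module.End ℤ H)
  (faithful : ∀ P : FreeAlgebra ℤ ℕ, FreeAlgebra.lift ℤ TH P = 0 → FreeAlgebra.lift ℤ t P = 0)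
  {W : ℕ → Type} [∀ n, AddCommGroup (W n)]
  (tors : ∀ (n : ℕ) (w : W n), (p ^ n) • w = 0)
  (act : ∀ n, GQ →* AddMonoid.End (W n))
  (smooth : ∀ (n : ℕ) (w : W n), ∃ L : IntermediateField ℚ Qb, FiniteDimensional ℚ L ∧
    ∀ σ : GQ, (∀ x ∈ L, σ x = x) → act n σ w = w)
  (TW : ∀ n, ℕ → AddMonoid.End (W n))
  (comm : ∀ (n ℓ : ℕ), ℓ.Prime → ℓ ∉ S → ∀ (σ : GQ) (w : W n),
    TW n ℓ (act n σ w) = act n σ (TW n ℓ w))
  (es : ∀ (n ℓ : ℕ), ℓ.Prime → ℓ ∉ S →
    ∀ A : ValuationSubring Qb, A.LiesOverPrime ℓ → ∀ σ : GQ, A.IsFrobeniusAt σ ℓ →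
      ∀ w : W n, act n σ (act n σ w) + ℓ • w = TW n ℓ (act n σ w))
  (κ : ∀ n, H →+ W n)
  (κ_ker : ∀ (n : ℕ) (h : H), κ n h = 0 → ∃ h' : H, h = (p ^ n) • h')
  (κ_T : ∀ (n ℓ : ℕ), ℓ.Prime → ℓ ∉ S → ∀ h : H, κ n (TH ℓ h) = TW n ℓ (κ n h))
  (pr : ∀ n, W n → W n → Qb)
  (prL : ∀ n x x' y, pr n (x + x') y = pr n x y * pr n x' y)
  (prR : ∀ n x y y', pr n x (y + y') = pr n x y * pr n x y')
  (prne : ∀ n x y, pr n x y ≠ 0)
  (prG : ∀ n (σ : GQ) x y, pr n (act n σ x) (act n σ y) = σ (pr n x y))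
  (prnd : ∀ n x, (∀ y, pr n x y = 1) → x = 0)

include hp hpT hpS hcont hfrob faithful tors smooth comm es κ_ker κ_T prL prR prne prG prnd in
/-- **(P4a)**: the trace of an element of `ℤ[G]` which kills `W (m + k)`. -/
theorem ann_trace : ∃ k : ℕ, ∀ (m : ℕ) (a : GQ →₀ ℤ),
    (∀ w : W (m + k), (a.sum fun g c => c • act (m + k) g w) = 0) →
    (a.sum fun g c => c • (M g).trace) ∈ maximalIdeal T ^ m := by
  obtain ⟨k, hk⟩ := hecke_congr_poly p TH t faithful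
  refine ⟨k, fun m a ha => ?_⟩
  set n : ℕ := m + k with hn
  let e := Module.Free.chooseBasis ℤ H
  choose La hLafd hLa using fun i => smooth n (κ n (e i))
  choose Lb hLbfd hLb using fun (g : GQ) i => smooth n (act n g⁻¹ (κ n (e i)))
  obtain ⟨L3, hL3fd, hL3⟩ := hcont m
  obtain ⟨ζ, hζ⟩ : ∃ ζ : Qb, IsPrimitiveRoot ζ (p ^ n) := by
    have : NeZero (p ^ n) := ⟨(pow_pos hp.pos n).ne'⟩
    have : NeZero ((p ^ n : ℕ) : Qb) := ⟨Nat.cast_ne_zero.mpr (NeZero.ne (p ^ n))⟩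
    exact HasEnoughRootsOfUnity.exists_primitiveRoot Qb (p ^ n)
  have hζint : IsIntegral ℚ ζ := (AlgebraicClosure.isAlgebraic ℚ).isIntegral.isIntegral ζ
  let L2 : IntermediateField ℚ Qb := IntermediateField.adjoin ℚ {ζ}
  have hL2fd : FiniteDimensional ℚ L2 := IntermediateField.adjoin.finiteDimensional hζint
  let L : IntermediateField ℚ Qb :=
    ((⨆ i, La i) ⊔ (⨆ g : a.support, ⨆ i, Lb g.1 i)) ⊔ L2 ⊔ L3
  have hLfd : FiniteDimensional ℚ L := inferInstance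
  have hLaL : ∀ i, ∀ x ∈ La i, x ∈ L := fun i x hx =>
    ((le_iSup La i).trans (le_sup_left.trans (le_sup_left.trans le_sup_left)) : La i ≤ L) hx
  have hLbL : ∀ g ∈ a.support, ∀ i, ∀ x ∈ Lb g i, x ∈ L := fun g hg i x hx =>
    (((le_iSup (Lb g) i).trans (le_iSup (fun g : a.support => ⨆ i, Lb g.1 i) ⟨g, hg⟩)).trans
      (le_sup_right.trans (le_sup_left.trans le_sup_left)) : Lb g i ≤ L) hx
  have hL3L : ∀ x ∈ L3, x ∈ L := fun x hx => (le_sup_right : L3 ≤ L) hx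
  have hζL : ζ ∈ L := (le_sup_right.trans le_sup_left : L2 ≤ L)
    (IntermediateField.mem_adjoin_simple_self ℚ ζ)
  choose ℓ hℓ hℓS A hA σ hσ b hb using fun g => S29.frobenius_density_lite L S g
  have hne : ∀ {s : ℕ}, s ∉ S → s ≠ p := fun hs h => hs (h ▸ hpS)
  have hnd : ∀ g, ¬ ℓ g ∣ p ^ n := by
    intro g hdvd
    exact hne (hℓS g) ((Nat.prime_dvd_prime_iff_eq (hℓ g) hp).mp ((hℓ g).dvd_of_dvd_pow hdvd))
  -- the cyclotomic character
  have hc : ∀ g ∈ a.support, ∀ z : Qb, z ^ (p ^ n) = 1 → g z = z ^ (ℓ g ^ b g) := by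
    intro g _ z hz
    have : NeZero (p ^ n) := ⟨(pow_pos hp.pos n).ne'⟩
    obtain ⟨i, -, rfl⟩ := hζ.eq_pow_of_pow_eq_one hz
    rw [← frob_pow_apply_root (hℓ g) (hA g) (hσ g) (hnd g) hz (b g), map_pow, map_pow,
      hb g ζ hζL]
  have hadj := adjoint_kill (p ^ n) (act n) (tors n) (pr n) (prL n) (prR n) (prne n) (prG n)
    (prnd n) a (fun g => ℓ g ^ b g) hc ha
  -- the Hecke polynomial kills the basis vectors
  have hbasis : ∀ i, κ n (FreeAlgebra.lift ℤ TH (polyOf a ℓ b) (e i)) = 0 := by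
    intro i
    set v : W n := κ n (e i) with hv
    rw [lift_polyOf, Finsupp.sum, LinearMap.sum_apply, map_sum]
    have h1 : ∀ g ∈ a.support, κ n ((a g • dseq (TH (ℓ g)) (ℓ g) (b g)) (e i)) =
        a g • act n g v + a g • ((ℓ g ^ b g) • act n g⁻¹ v) := by
      intro g hg
      rw [LinearMap.smul_apply, map_zsmul,
        kappa_dseq (κ n) (TH (ℓ g)) (TW n (ℓ g)) (κ_T n (ℓ g) (hℓ g) (hℓS g)), ← smul_add]
      congr 1
      set w : W n := act n g⁻¹ v with hw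
      have hgw : act n g w = v := by
        rw [hw, ← end_mul_apply, ← map_mul, mul_inv_cancel, map_one]
        rfl
      have a1 : act n (σ g ^ b g) w = v := by
        rw [act_eq_of_level (act n) w (Lb g i) (hLb g i) (σ g ^ b g) g
          fun x hx => hb g x (hLbL g hg i x hx), hgw]
      have a2 : act n (σ g ^ b g) v = act n g v :=
        act_eq_of_level (act n) v (La i) (hLa i) (σ g ^ b g) g fun x hx => hb g x (hLaL i x hx)
      have r1 := quad_relation (act n) (TW n (ℓ g)) (ℓ g) (b g) (σ g)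
        (comm n (ℓ g) (hℓ g) (hℓS g) (σ g)) (es n (ℓ g) (hℓ g) (hℓS g) (A g) (hA g) (σ g) (hσ g))
        w v _ a1 a2
      rw [← hv]
      have r2 : dseq (TW n (ℓ g)) (ℓ g) (b g) v = act n g v + (ℓ g ^ b g) • w := by
        have r3 : act n g v + (ℓ g ^ b g) • w - dseq (TW n (ℓ g)) (ℓ g) (b g) v = 0 := by
          rw [← r1]
          abel
        exact (sub_eq_zero.1 r3).symm
      exact r2
    rw [Finset.sum_congr rfl h1, Finset.sum_add_distrib]
    have h2 := ha v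
    have h3 := hadj v
    rw [Finsupp.sum] at h2 h3
    rw [h2, h3, add_zero]
  have hall : ∀ h : H, ∃ h' : H, FreeAlgebra.lift ℤ TH (polyOf a ℓ b) h = (p ^ n) • h' := by
    have hzero : (κ n).toIntLinearMap ∘ₗ (FreeAlgebra.lift ℤ TH (polyOf a ℓ b)) = 0 :=
      e.ext fun i => hbasis i
    intro h
    exact κ_ker n _ (LinearMap.congr_fun hzero h)
  obtain ⟨w, hw⟩ := hk n (by omega) _ hall
  have hnk : n - k = m := by omega
  rw [hnk, lift_polyOf] at hw
  have hw' : (a.sum fun g c => c • dseq (π (t (ℓ g))) (ℓ g) (b g)) ∈ maximalIdeal T ^ m := by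
    have h1 : (a.sum fun g c => c • dseq (π (t (ℓ g))) (ℓ g) (b g)) =
        π (a.sum fun g c => c • dseq (t (ℓ g)) (ℓ g) (b g)) := by
      rw [Finsupp.sum, Finsupp.sum, map_sum]
      refine Finset.sum_congr rfl fun g _ => ?_
      rw [map_zsmul, map_dseq]
    rw [h1, hw, map_mul, map_pow, map_natCast]
    exact Ideal.mul_mem_right _ _ (Ideal.pow_mem_pow hpT m)
  have hdiff : (a.sum fun g c => c • (M g).trace) -
      (a.sum fun g c => c • dseq (π (t (ℓ g))) (ℓ g) (b g)) ∈ maximalIdeal T ^ m := by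
    rw [Finsupp.sum, Finsupp.sum, ← Finset.sum_sub_distrib]
    refine Ideal.sum_mem _ fun g _ => ?_
    rw [← smul_sub, zsmul_eq_mul]
    refine Ideal.mul_mem_left _ _ ?_
    obtain ⟨htr, hdet⟩ := hfrob (ℓ g) (hℓ g) (hℓS g) (A g) (hA g) (σ g) (hσ g)
    have c1 := trace_congr (maximalIdeal T ^ m) M L3 hL3 (σ g) g (b g) (ℓ g) hdet
      fun x hx => hb g x (hL3L x hx)
    rwa [htr] at c1
  have := Ideal.add_mem _ hdiff hw'
  rwa [sub_add_cancel] at this

include hp hpT hpS hcont hfrob faithful tors smooth comm es κ_ker κ_T prL prR prne prG prnd in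
/-- **(P4)**. -/
theorem ann_matrix {K : Type} [Field K] [IsAlgClosed K] (φ : T →+* K) [IsLocalHom φ]
    (hirr : ∀ W : Submodule K (Fin 2 → K),
      (∀ g, ∀ v ∈ W, ((M g).map φ).mulVec v ∈ W) → W = ⊥ ∨ W = ⊤) :
    ∃ k : ℕ, ∀ (m : ℕ) (a : GQ →₀ ℤ),
      (∀ w : W (m + k), (a.sum fun g c => c • act (m + k) g w) = 0) →
      ∀ i j, (a.sum fun g c => c • M g) i j ∈ maximalIdeal T ^ m := by
  obtain ⟨k, hk⟩ := ann_trace p hp hpT S hpS M hcont π t hfrob TH faithful tors act smooth TW comm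
    es κ κ_ker κ_T pr prL prR prne prG prnd
  refine ⟨k, fun m a ha => ?_⟩
  apply trace_determines_mod φ M hirr
  intro h
  -- right translate
  have h1 := hk m (a.mapDomain fun g => g * h) (by
    intro w
    rw [Finsupp.sum_mapDomain_index (fun g => by rw [zero_smul]) (fun g c c' => by rw [add_smul])]
    have h2 := ha (act (m + k) h w)
    rw [← h2]
    refine Finsupp.sum_congr fun g _ => ?_
    rw [map_mul]
    rfl)
  rw [Finsupp.sum_mapDomain_index (fun g => by rw [zero_smul])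
    (fun g c c' => by rw [add_smul])] at h1
  have h3 : ((a.sum fun g c => c • M g) * M h).trace =
      a.sum fun g c => c • (M (g * h)).trace := by
    rw [Finsupp.sum, Finsupp.sum, Finset.sum_mul, Matrix.trace_sum]
    refine Finset.sum_congr rfl fun g _ => ?_
    rw [smul_mul_assoc, Matrix.trace_smul, map_mul]
  rw [h3]
  exact h1

end

end Fermat.Agent.S32.AnnB
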