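import Fermat.Agent.S32.TraceMod

/-!
# S32 / (P4c) : from traces to matrices

If every element of `ℤ[G]` which kills `W` has trace in `J`, then every element of `ℤ[G]` which kills
`W` has all its matrix entries in `J`.
-/

set_option autoImplicit false

namespace Fermat.Agent.S32

open IsLocalRing Fermat.Agent.S31

theorem ann_matrix_of_trace {T : Type} [CommRing T] [IsLocalRing T] {G : Type} [Group G]
    (M : G →* Matrix (Fin 2) (Fin 2) T)
    {W : Type} [AddCommGroup W] (act : G →* AddMonoid.End W) (J : Ideal T)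
    (htr : ∀ a : G →₀ ℤ, (∀ w : W, (a.sum fun g c => c • act g w) = 0) →
      (a.sum fun g c => c • (M g).trace) ∈ J)
    {K : Type} [Field K] [IsAlgClosed K] (φ : T →+* K) [IsLocalHom φ]
    (hirr : ∀ W : Submodule K (Fin 2 → K),
      (∀ g, ∀ v ∈ W, ((M g).map φ).mulVec v ∈ W) → W = ⊥ ∨ W = ⊤)
    (a : G →₀ ℤ) (ha : ∀ w : W, (a.sum fun g c => c • act g w) = 0) :
    ∀ i j, (a.sum fun g c => c • M g) i j ∈ J := by
  classical
  apply trace_determines_mod φ M hirr J
  intro h
  have h1 : ∀ w : W, ((a.mapDomain (· * h)).sum fun g c => c • act g w) = 0 := by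
    intro w
    rw [Finsupp.sum_mapDomain_index (h := fun g c => c • act g w) (fun _ => zero_smul _ _)
      (fun _ _ _ => add_smul _ _ _)]
    have := ha (act h w)
    simp only [map_mul]
    exact this
  have h2 := htr _ h1
  rw [Finsupp.sum_mapDomain_index (h := fun g c => c • (M g).trace) (fun _ => zero_smul _ _)
    (fun _ _ _ => add_smul _ _ _)] at h2
  have h3 : ((a.sum fun g c => c • M g) * M h).trace = a.sum fun g c => c • (M (g * h)).trace := by
    rw [Finsupp.sum, Finsupp.sum, Finset.sum_mul, Matrix.trace_sum]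
    refine Finset.sum_congr rfl fun g _ => ?_
    rw [smul_mul_assoc, Matrix.trace_smul, map_mul]
  rw [h3]
  exact h2

end Fermat.Agent.S32
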