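import Fermat.Agent.S19.Formal.Basic

set_option autoImplicit false

/-!
# S32 / (P1a) : duality of finite abelian groups, in the form needed by (P1)
-/

namespace Fermat.Agent.S32

open Fermat.Agent.S19.Formal

/-- **(P1a)**: a left non-degenerate bimultiplicative pairing realises enough characters.
(Mathlib: `CommGroup.subgroupOrderIsoSubgroupMonoidHom`, `CommGroup.forall_monoidHom_apply_eq_one_iff`
for `G = Multiplicative 𝓜`, `M = Qb`.) -/
theorem exists_sep {𝓜 𝓨 : Type} [AddCommGroup 𝓜] [Finite 𝓜] [AddCommGroup 𝓨]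
    (E : 𝓜 → 𝓨 → Qb)
    (hL : ∀ x x' y, E (x + x') y = E x y * E x' y)
    (hR : ∀ x y y', E x (y + y') = E x y * E x y')
    (hne : ∀ x y, E x y ≠ 0) (hnd : ∀ x, (∀ y, E x y = 1) → x = 0)
    (K : AddSubgroup 𝓜) (z : 𝓜) (hz : z ∉ K) :
    ∃ y, (∀ n ∈ K, E n y = 1) ∧ E z y ≠ 1 := by
  classical
  have hexp : Monoid.exponent (Multiplicative 𝓜) ≠ 0 := Monoid.exponent_ne_zero_of_finite
  have : NeZero ((Monoid.exponent (Multiplicative 𝓜) : ℕ) : Qb) := ⟨by exact_mod_cast hexp⟩
  have hroots : HasEnoughRootsOfUnity Qb (Monoid.exponent (Multiplicative 𝓜)) := inferInstance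
  -- the character attached to `y`
  let ch : 𝓨 → (Multiplicative 𝓜 →* Qbˣ) := fun y =>
    MonoidHom.mk' (fun x => Units.mk0 (E (Multiplicative.toAdd x) y) (hne _ _))
      (fun x x' => Units.ext (hL _ _ _))
  have hch : ∀ y x, ((ch y x : Qbˣ) : Qb) = E (Multiplicative.toAdd x) y := fun _ _ => rfl
  let Ψ : Multiplicative 𝓨 →* (Multiplicative 𝓜 →* Qbˣ) :=
    MonoidHom.mk' (fun y => ch (Multiplicative.toAdd y))
      (fun y y' => MonoidHom.ext fun x => Units.ext (hR _ _ _))
  have hbot : (CommGroup.subgroupOrderIsoSubgroupMonoidHom (Multiplicative 𝓜) Qb).symm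
      (OrderDual.toDual Ψ.range) = ⊥ := by
    rw [eq_bot_iff]
    intro g hg
    rw [CommGroup.mem_subgroupOrderIsoSubgroupMonoidHom_symm_iff] at hg
    rw [Subgroup.mem_bot]
    have h0 : Multiplicative.toAdd g = 0 := hnd _ fun y => by
      have := hg (Ψ (Multiplicative.ofAdd y)) ⟨_, rfl⟩
      have h2 := congrArg (Units.val) this
      exact h2
    exact h0
  have htop : ∀ φ : Multiplicative 𝓜 →* Qbˣ, φ ∈ Ψ.range := by
    intro φ
    have h1 : OrderDual.toDual Ψ.range =
        CommGroup.subgroupOrderIsoSubgroupMonoidHom (Multiplicative 𝓜) Qb ⊥ := by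
      rw [← hbot, OrderIso.apply_symm_apply]
    have h2 : φ ∈ (CommGroup.subgroupOrderIsoSubgroupMonoidHom (Multiplicative 𝓜) Qb ⊥).ofDual := by
      rw [CommGroup.mem_subgroupOrderIsoSubgroupMonoidHom_iff]
      intro g hg
      rw [Subgroup.mem_bot.mp hg, map_one]
    rw [← h1] at h2
    exact h2
  have hz' : Multiplicative.ofAdd z ∉ AddSubgroup.toSubgroup K := hz
  have h3 := (CommGroup.forall_monoidHom_apply_eq_one_iff Qb (AddSubgroup.toSubgroup K)
    (Multiplicative.ofAdd z)).not.mpr hz'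
  push Not at h3
  obtain ⟨φ, hφK, hφz⟩ := h3
  obtain ⟨y, rfl⟩ := htop φ
  refine ⟨Multiplicative.toAdd y, fun n hn => ?_, fun h => hφz (Units.ext h)⟩
  exact congrArg Units.val (hφK (Multiplicative.ofAdd n) hn)

end Fermat.Agent.S32
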