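import Fermat.Agent.S19.Formal.Front
import Fermat.Agent.S32.Dual

set_option autoImplicit false

/-!
# S32 / (P1) : formal closure of the pairing criterion under subquotients of powers
-/

namespace Fermat.Agent.S32

open Fermat.Agent.S19.Formal

section aux

variable {G : Type} [Group G] {M : Type} [AddCommGroup M] (act : G →* AddMonoid.End M)

/-- the action of `ℤ[G]` on a vector. -/
noncomputable def appl (w : M) : (G →₀ ℤ) →+ M :=
  Finsupp.liftAddHom (fun g => (smulAddHom ℤ M).flip (act g w))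

theorem appl_apply (w : M) (a : G →₀ ℤ) : appl act w a = a.sum fun g c => c • act g w := rfl

theorem act_mul_apply (σ τ : G) (w : M) : act (σ * τ) w = act σ (act τ w) := by
  rw [map_mul]; rfl

theorem act_one_apply (w : M) : act 1 w = w := by
  rw [map_one]; rfl

theorem act_inv_act (σ : G) (w : M) : act σ⁻¹ (act σ w) = w := by
  rw [← act_mul_apply, inv_mul_cancel, act_one_apply]

theorem act_act_inv (σ : G) (w : M) : act σ (act σ⁻¹ w) = w := by
  rw [← act_mul_apply, mul_inv_cancel, act_one_apply]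

theorem appl_single (w : M) (g : G) (c : ℤ) : appl act w (Finsupp.single g c) = c • act g w := by
  rw [appl_apply, Finsupp.sum_single_index (by rw [zero_smul])]

theorem appl_mapDomain (σ : G) (w : M) (a : G →₀ ℤ) :
    appl act w (a.mapDomain fun g => σ * g) = act σ (appl act w a) := by
  rw [appl_apply, appl_apply, Finsupp.sum_mapDomain_index (fun g => by rw [zero_smul])
    (fun g c c' => by rw [add_smul]), Finsupp.sum, Finsupp.sum, map_sum]
  refine Finset.sum_congr rfl fun g _ => ?_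
  rw [act_mul_apply, map_zsmul]

end aux

theorem span_mul_mem {R B : Type*} [CommSemiring R] [Semiring B] [Algebra R B] {S : Set B}
    (hS : ∀ a ∈ S, ∀ b ∈ S, a * b ∈ S) {f g : B} (hf : f ∈ Submodule.span R S)
    (hg : g ∈ Submodule.span R S) : f * g ∈ Submodule.span R S := by
  have h1 := Submodule.mul_mem_mul hf hg
  rw [Submodule.span_mul_span] at h1
  refine Submodule.span_mono ?_ h1
  rintro _ ⟨a, ha, b, hb, rfl⟩
  exact hS a ha b hb

/-- pull back of the span of the equivariant integral functions. -/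
theorem span_pullback (A : ValuationSubring Qb) {Y Y' : Type} (actY : Gal → Y → Y)
    (actY' : Gal → Y' → Y') (q : Y' → Y) (hq : ∀ σ y, q (actY' σ y) = actY σ (q y))
    {φ : Y → Qb} (hφ : φ ∈ Submodule.span A
      {φ : Y → Qb | (∀ σ y, φ (actY σ y) = σ (φ y)) ∧ ∀ y, φ y ∈ A}) :
    (fun y => φ (q y)) ∈ Submodule.span A
      {φ : Y' → Qb | (∀ σ y, φ (actY' σ y) = σ (φ y)) ∧ ∀ y, φ y ∈ A} := by
  have h1 := Submodule.mem_map_of_mem (f := LinearMap.funLeft A Qb q) hφ
  rw [Submodule.map_span] at h1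
  refine Submodule.span_mono ?_ h1
  rintro _ ⟨ψ, ⟨h2, h3⟩, rfl⟩
  exact ⟨fun σ y => by
    show ψ (q (actY' σ y)) = σ (ψ (q y))
    rw [hq, h2], fun y => h3 (q y)⟩

/-- **(P1)**. -/
theorem closure (ℓ : ℕ) [Fact ℓ.Prime] {M X : Type} [AddCommGroup M] [Finite M]
    [AddCommGroup X] [Finite X]
    (actM : Gal →* AddMonoid.End M) (actX : Gal →* AddMonoid.End X)
    (e : M → M → Qb)
    (hmulL : ∀ x x' y, e (x + x') y = e x y * e x' y)
    (hmulR : ∀ x y y', e x (y + y') = e x y * e x y')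
    (hne : ∀ x y, e x y ≠ 0)
    (heq : ∀ σ x y, e (actM σ x) (actM σ y) = σ (e x y))
    (hnd : ∀ x, (∀ y, e x y = 1) → x = 0)
    (A : ValuationSubring Qb) (hA : ((ℓ : Qb))⁻¹ ∉ A)
    (hint : ∀ x, e x ∈ Submodule.span A
      {φ : M → Qb | (∀ σ y, φ (actM σ y) = σ (φ y)) ∧ ∀ y, φ y ∈ A})
    (hann : ∀ a : Gal →₀ ℤ, (∀ w : M, (a.sum fun g c => c • actM g w) = 0) →
      ∀ x : X, (a.sum fun g c => c • actX g x) = 0) :
    Conclusion ℓ X (fun σ x => actX σ x) := by
  classical
  cases nonempty_fintype M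
  cases nonempty_fintype X
  -- the product pairing
  let E : (X × M → M) → (X × M → M) → Qb := fun x y => ∏ i, e (x i) (y i)
  have he0 : ∀ x, e x 0 = 1 := by
    intro x
    have h1 := hmulR x 0 0
    rw [add_zero] at h1
    exact (mul_left_cancel₀ (hne x 0) (by rw [mul_one]; exact h1)).symm
  have EL : ∀ x x' y, E (x + x') y = E x y * E x' y := by
    intro x x' y
    show ∏ i, e ((x + x') i) (y i) = _
    simp only [Pi.add_apply, hmulL, Finset.prod_mul_distrib]
    rfl
  have ER : ∀ x y y', E x (y + y') = E x y * E x y' := by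
    intro x y y'
    show ∏ i, e (x i) ((y + y') i) = _
    simp only [Pi.add_apply, hmulR, Finset.prod_mul_distrib]
    rfl
  have Ene : ∀ x y, E x y ≠ 0 := fun x y => Finset.prod_ne_zero_iff.2 fun i _ => hne _ _
  have End : ∀ x, (∀ y, E x y = 1) → x = 0 := by
    intro x hx
    funext i
    apply hnd
    intro y0
    have h1 := hx (Pi.single i y0)
    have h2 : E x (Pi.single i y0) = e (x i) y0 := by
      show ∏ j, e (x j) ((Pi.single i y0 : X × M → M) j) = _
      rw [Finset.prod_eq_single i]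
      · rw [Pi.single_eq_same]
      · intro j _ hj
        rw [Pi.single_eq_of_ne hj, he0]
      · intro h
        exact absurd (Finset.mem_univ i) h
    rw [← h2, h1]
  let actP : Gal → (X × M → M) → (X × M → M) := fun σ y i => actM σ (y i)
  have EG : ∀ σ x y, E (actP σ x) (actP σ y) = σ (E x y) := by
    intro σ x y
    show ∏ i, e (actM σ (x i)) (actM σ (y i)) = σ (∏ i, e (x i) (y i))
    rw [map_prod]
    exact Finset.prod_congr rfl fun i _ => heq σ _ _
  -- the presentation
  let Φ : (X → (Gal →₀ ℤ)) →+ (X × M → M) :=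
    AddMonoidHom.mk' (fun a i => appl actM i.2 (a i.1)) (by
      intro a b
      funext i
      show appl actM i.2 ((a + b) i.1) = appl actM i.2 (a i.1) + appl actM i.2 (b i.1)
      rw [Pi.add_apply, map_add])
  let Ψ : (X → (Gal →₀ ℤ)) →+ X :=
    AddMonoidHom.mk' (fun a => ∑ x, appl actX x (a x)) (by
      intro a b
      simp only [Pi.add_apply, map_add, Finset.sum_add_distrib])
  have hΦ : ∀ a i, Φ a i = appl actM i.2 (a i.1) := fun a i => rfl
  have hΨ : ∀ a, Ψ a = ∑ x, appl actX x (a x) := fun a => rfl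
  have hker : ∀ a, Φ a = 0 → Ψ a = 0 := by
    intro a ha
    rw [hΨ]
    refine Finset.sum_eq_zero fun x _ => ?_
    refine hann (a x) (fun w => ?_) x
    have := congrFun ha (x, w)
    exact this
  have hsurj : Function.Surjective Ψ := by
    intro x
    refine ⟨Pi.single x (Finsupp.single 1 1), ?_⟩
    rw [hΨ, Finset.sum_eq_single x]
    · rw [Pi.single_eq_same, appl_single, one_smul, act_one_apply]
    · intro y _ hy
      rw [Pi.single_eq_of_ne hy, map_zero]
    · intro h
      exact absurd (Finset.mem_univ x) h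
  let tr : Gal → (X → (Gal →₀ ℤ)) → (X → (Gal →₀ ℤ)) :=
    fun σ a x => (a x).mapDomain fun g => σ * g
  have hΦtr : ∀ σ a, Φ (tr σ a) = actP σ (Φ a) := by
    intro σ a
    funext i
    exact appl_mapDomain actM σ i.2 (a i.1)
  have hΨtr : ∀ σ a, Ψ (tr σ a) = actX σ (Ψ a) := by
    intro σ a
    rw [hΨ, hΨ, map_sum]
    exact Finset.sum_congr rfl fun x _ => appl_mapDomain actX σ x (a x)
  let K : AddSubgroup (X × M → M) := Ψ.ker.map Φ
  have hKmem : ∀ a, Ψ a = 0 → Φ a ∈ K := fun a ha => ⟨a, ha, rfl⟩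
  have hactP_inv : ∀ σ y, actP σ (actP σ⁻¹ y) = y := by
    intro σ y
    funext i
    exact act_act_inv actM σ (y i)
  have hstab : ∀ σ (y : X × M → M), (∀ n ∈ K, E n y = 1) → ∀ n ∈ K, E n (actP σ y) = 1 := by
    rintro σ y hy _ ⟨a, ha, rfl⟩
    have h1 : E (actP σ (actP σ⁻¹ (Φ a))) (actP σ y) = σ (E (actP σ⁻¹ (Φ a)) y) := EG σ _ _
    rw [hactP_inv] at h1
    rw [h1, ← hΦtr, hy _ (hKmem _ (by
      rw [hΨtr, (show Ψ a = 0 from ha), map_zero])), map_one]
  let Y : Type := {y : X × M → M // ∀ n ∈ K, E n y = 1}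
  let actY : Gal → Y → Y := fun σ y => ⟨actP σ y.1, hstab σ y.1 y.2⟩
  have hactY : ∀ σ, Function.Bijective (actY σ) := by
    intro σ
    refine Finite.injective_iff_bijective.1 fun y y' h => ?_
    apply Subtype.ext
    funext i
    have h1 : actM σ (y.1 i) = actM σ (y'.1 i) := congrFun (congrArg Subtype.val h) i
    rw [← act_inv_act actM σ (y.1 i), h1, act_inv_act]
  let s : X → (X → (Gal →₀ ℤ)) := Function.surjInv hsurj
  have hs : ∀ x, Ψ (s x) = x := Function.surjInv_eq hsurj
  have kl : ∀ (a a' : X → (Gal →₀ ℤ)) (y : Y), Ψ a = Ψ a' → E (Φ a) y.1 = E (Φ a') y.1 := by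
    intro a a' y h
    have h1 : Φ a = Φ (a - a') + Φ a' := by rw [← map_add, sub_add_cancel]
    rw [h1, EL, y.2 _ (hKmem _ (by rw [map_sub, h, sub_self])), one_mul]
  refine front ℓ (M := X) (Y := Y) (fun σ x => actX σ x) actY hactY
    (fun x y => E (Φ (s x)) y.1) ?_ ?_ ?_ A hA ?_
  · intro x x' y
    show E (Φ (s (x + x'))) y.1 = E (Φ (s x)) y.1 * E (Φ (s x')) y.1
    rw [kl (s (x + x')) (s x + s x') y (by rw [map_add, hs, hs, hs]), map_add, EL]
  · intro σ x y
    show E (Φ (s (actX σ x))) (actY σ y).1 = σ (E (Φ (s x)) y.1)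
    rw [kl (s (actX σ x)) (tr σ (s x)) (actY σ y) (by rw [hs, hΨtr, hs]), hΦtr]
    exact EG σ _ _
  · intro x x' h
    have h1 : Φ (s x - s x') ∈ K := by
      by_contra hcon
      obtain ⟨y, hy1, hy2⟩ := exists_sep E EL ER Ene End K _ hcon
      apply hy2
      have h2 : E (Φ (s x)) y = E (Φ (s x')) y := h ⟨y, hy1⟩
      have h3 : Φ (s x) = Φ (s x - s x') + Φ (s x') := by rw [← map_add, sub_add_cancel]
      rw [h3, EL] at h2
      exact mul_right_cancel₀ (Ene _ _) (by rw [one_mul]; exact h2)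
    obtain ⟨a0, ha0, ha1⟩ := h1
    have h4 : Ψ (a0 - (s x - s x')) = 0 := hker _ (by rw [map_sub, ha1, sub_self])
    rw [map_sub, (show Ψ a0 = 0 from ha0), map_sub, hs, hs, zero_sub, neg_eq_zero,
      sub_eq_zero] at h4
    exact h4
  · intro x
    have hgen : ∀ z : X × M → M, (fun y : Y => E z y.1) ∈ Submodule.span A
        {φ : Y → Qb | (∀ σ y, φ (actY σ y) = σ (φ y)) ∧ ∀ y, φ y ∈ A} := by
      intro z
      have h1 : (fun y : Y => E z y.1) = ∏ i, fun y : Y => e (z i) (y.1 i) := by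
        funext y
        rw [Finset.prod_apply]
      rw [h1]
      refine Finset.prod_induction _ (fun f => f ∈ Submodule.span A
        {φ : Y → Qb | (∀ σ y, φ (actY σ y) = σ (φ y)) ∧ ∀ y, φ y ∈ A}) ?_ ?_ ?_
      · intro f g hf hg
        refine span_mul_mem ?_ hf hg
        rintro a ⟨ha1, ha2⟩ b ⟨hb1, hb2⟩
        exact ⟨fun σ y => by rw [Pi.mul_apply, Pi.mul_apply, ha1, hb1, map_mul],
          fun y => A.mul_mem _ _ (ha2 y) (hb2 y)⟩
      · exact Submodule.subset_span ⟨fun σ y => (map_one σ).symm, fun y => A.one_mem⟩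
      · intro i _
        exact span_pullback A (fun σ y => actM σ y) actY (fun y => y.1 i) (fun σ y => rfl)
          (hint (z i))
    exact hgen _

end Fermat.Agent.S32
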